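import Fermat.Agent.S36.Mod3.H383.NormalV1

/-!
# S36 / MOD3, leaf NORMAL (helper383): the component `V₃ = V₀`
-/

set_option autoImplicit false
set_option synthInstance.maxHeartbeats 400000
set_option maxHeartbeats 1600000
set_option linter.unusedSectionVars false
set_option linter.style.haveILetI false

noncomputable section

namespace Fermat.Agent.S36.Mod3.H383

open ModularCurve
open Fermat.Agent.A2.Mod
open Fermat.Agent.S36.Eng
open Fermat.Agent.S18.H138 (chart)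

variable {P : ValuationSubring Qb} {E : IntermediateField ℚ Qb} {M q : ℕ} [NeZero M] [NeZero q]
  [NeZero (M * q)] {w : RE P E}

/-! ## The component `V₃ = V₀ = V∞ ∘ W` -/

theorem normal_V3 (h : Std P E M q w)
    {V₁ : ValuationSubring (FE E (M * q * q))} (hV1 : IsVinf P E (M * q * q) V₁)
    {W : FE E (M * q * q) ≃ₐ[E] FE E (M * q * q)} (hW : IsFricke E (M * q * q) W) :
    NormalAlong (chart (RE P E) ({x3E E M q} : Set (FE E (M * q * q))))
        (V₁.comap (W : FE E (M * q * q) →+* FE E (M * q * q))) ∧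
      NormalAlong (chart (RE P E) ({(x3E E M q)⁻¹} : Set (FE E (M * q * q))))
        (V₁.comap (W : FE E (M * q * q) →+* FE E (M * q * q))) := by
  have hS := setting_of_std h
  have hSQ := settingQ_of_std h
  have hdvr := hS.dvr
  have hq := h.q_prime
  obtain ⟨VM, hVM⟩ := H553.vinfExists P E M (NeZero.ne M) hdvr
  have hN' : M * q ≠ 0 := NeZero.ne _
  have hN : M * q * q ≠ 0 := Nat.mul_ne_zero hN' hq.ne_zero
  haveI : NeZero (M * q * q) := ⟨hN⟩
  obtain ⟨V₁', hV1'⟩ := H553.vinfExists P E (M * q) hN' hdvr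
  have hL2 := H553.vinfBasic P E w (M * q * q) hN hdvr h.unif V₁ hV1
  have hL2' := H553.vinfBasic P E w (M * q) hN' hdvr h.unif V₁' hV1'
  obtain ⟨V₃, hV3⟩ : ∃ V₃ : ValuationSubring (FE E (M * q * q)),
      V₃ = V₁.comap (W : FE E (M * q * q) →+* FE E (M * q * q)) := ⟨_, rfl⟩
  rw [← hV3]
  obtain ⟨WM, hWMdef⟩ : ∃ WM : FE E M ≃ₐ[E] FE E M, WM = H751.frickeE E M := ⟨_, rfl⟩
  have hWM : IsFricke E M WM := hWMdef ▸ H751.isFricke_frickeE E M
  obtain ⟨W', hW'def⟩ : ∃ W' : FE E (M * q) ≃ₐ[E] FE E (M * q), W' = H751.frickeE E (M * q) :=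
    ⟨_, rfl⟩
  have hW' : IsFricke E (M * q) W' := hW'def ▸ H751.isFricke_frickeE E (M * q)
  obtain ⟨V₂', hV2'⟩ : ∃ V₂' : ValuationSubring (FE E (M * q)),
      V₂' = V₁'.comap (W' : FE E (M * q) →+* FE E (M * q)) := ⟨_, rfl⟩
  have hU3 : A2.H48.IsUnif V₃ (cE P E (M * q * q) w) := hV3 ▸ H142.isUnif_comap W hL2.1
  have hU2' : A2.H48.IsUnif V₂' (cE P E (M * q) w) := hV2' ▸ H142.isUnif_comap W' hL2'.1
  have hmem3 : ∀ f, f ∈ V₃ ↔ W f ∈ V₁ := fun f => by
    rw [hV3, ValuationSubring.mem_comap]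
    rfl
  have hRV : ∀ r : RE P E, algebraMap (RE P E) (FE E (M * q * q)) r ∈ V₃ := fun r => by
    rw [hmem3]
    show W (algebraMap E (FE E (M * q * q)) (r : E)) ∈ V₁
    rw [W.commutes]
    exact (hL2.2.1 (r : E)).mpr r.2
  have hwV : cE P E (M * q * q) w ∈ V₃.nonunits := nu383_of_inv_not V₃ hU3.inv_not_mem
  have hc2 : V₃.comap (βE E (M * q) q : FE E (M * q) →+* FE E (M * q * q)) = V₂' := by
    rw [hV3, hV2']
    exact Fermat.Agent.S36.H370.comap_beta_vzeroQ hSQ hV1' hV1 hW' hW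
  have hc1 : V₂'.comap (βE E M q : FE E M →+* FE E (M * q)) =
      VM.comap (WM : FE E M →+* FE E M) := by
    rw [hV2']
    exact Fermat.Agent.S36.H370.comap_beta_vzeroQ hSQ hVM hV1' hWM hW'
  have hL7 := H900.frickeStable P E M q w hS VM WM hVM hWM
  have hVMW : ∀ g, g ∈ VM.comap (WM : FE E M →+* FE E M) ↔ g ∈ VM := by
    intro g
    rw [ValuationSubring.mem_comap]
    constructor
    · intro hg
      have hg' : WM g ∈ VM := hg
      have h1 := hL7 _ hg'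
      rwa [hWM.2] at h1
    · exact hL7 g
  have hγV : ∀ g ∈ VM, gammaB E M q g ∈ V₃ := by
    intro g hg
    have hg1 : g ∈ VM.comap (WM : FE E M →+* FE E M) := (hVMW g).2 hg
    have hg2 : βE E M q g ∈ V₂' :=
      (mem_of_comap_eq (βE E M q : FE E M →+* FE E (M * q)) V₂' _ hc1 g).2 hg1
    exact (mem_of_comap_eq (βE E (M * q) q : FE E (M * q) →+* FE E (M * q * q)) V₃ V₂' hc2
      _).2 hg2
  have hres : ∀ f ∈ V₃, ∃ g ∈ VM, V₃.valuation (f - gammaB E M q g) < 1 := by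
    refine res_comp (βE E M q : FE E M →+* FE E (M * q))
      (βE E (M * q) q : FE E (M * q) →+* FE E (M * q * q)) VM V₂' V₃ ?_ ?_ ?_
    · intro f hf
      rw [hV3] at hf
      obtain ⟨g, hg, hfg⟩ := Fermat.Agent.S36.H370.resZeroQ hSQ hV1' hV1 hW' hW hf
      rw [← hV3] at hfg
      rw [← hV2'] at hg
      exact ⟨g, hg, (V₃.mem_nonunits_iff).2 ((H142.inW_iff hU3 _).1 hfg)⟩
    · intro f hf
      rw [hV2'] at hf
      obtain ⟨g, hg, hfg⟩ := Fermat.Agent.S36.H370.resZeroQ hSQ hVM hV1' hWM hW' hf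
      rw [← hV2'] at hfg
      exact ⟨g, (hVMW g).1 hg, (V₂'.mem_nonunits_iff).2 ((H142.inW_iff hU2' _).1 hfg)⟩
    · intro g hg
      exact nonunits_comap _ V₃ V₂' hc2 hg
  -- units
  have hun : ∀ (d d' : ℕ) [NeZero d] [NeZero d'] (hd : d ∣ M * q * q) (hd' : d' ∣ M * q * q),
      d * d' = M * q * q →
      jE E (M * q * q) d hd ∈ V₃ ∧ (jE E (M * q * q) d hd)⁻¹ ∈ V₃ := by
    intro d d' _ _ hd hd' hdd
    have hWj := hW.1 d d' hd hd' hdd
    have h1 := hL2.2.2 d' hd'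
    constructor
    · rw [hmem3, hWj]
      exact h1.1
    · rw [hmem3, map_inv₀, hWj]
      exact h1.2
  have hj1 : j1 E M q ∈ V₃ ∧ (j1 E M q)⁻¹ ∈ V₃ :=
    hun 1 (M * q * q) (one_dvd _) dvd_rfl (one_mul _)
  have hjq : jq E M q ∈ V₃ ∧ (jq E M q)⁻¹ ∈ V₃ :=
    hun q (M * q) (Dvd.intro_left (M * q) rfl) (dvd_mul_right (M * q) q) (by ring)
  have hjqq : jqq E M q ∈ V₃ ∧ (jqq E M q)⁻¹ ∈ V₃ :=
    hun (q * q) M ⟨M, by ring⟩ ⟨q * q, by ring⟩ (by ring)
  have hx := x3E_unit V₃ hj1 hjq hjqq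
  -- the Fricke images
  have hWj1 : W (j1 E M q) = jE E (M * q * q) (M * q * q) dvd_rfl :=
    hW.1 1 (M * q * q) (one_dvd _) dvd_rfl (one_mul _)
  have hWjq : W (jq E M q) = jE E (M * q * q) (M * q) (dvd_mul_right (M * q) q) :=
    hW.1 q (M * q) (Dvd.intro_left (M * q) rfl) (dvd_mul_right (M * q) q) (by ring)
  have hWjqq : W (jqq E M q) = jE E (M * q * q) M ⟨q * q, by ring⟩ :=
    hW.1 (q * q) M ⟨M, by ring⟩ ⟨q * q, by ring⟩ (by ring)
  have hnu3 : ∀ f, InW P E (M * q * q) V₁ w (W f) → f ∈ V₃.nonunits := by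
    intro f hf
    have h1 : InW P E (M * q * q) V₃ w f := by
      rw [hV3]
      exact (H142.inW_comap_iff W f).2 hf
    exact (V₃.mem_nonunits_iff).2 ((H142.inW_iff hU3 _).1 h1)
  -- Kronecker
  have hk1 : jq E M q - jqq E M q ^ q ∈ V₃.nonunits := by
    apply hnu3
    rw [map_sub, map_pow, hWjq, hWjqq]
    exact H142.frobCong (P := P) (E := E) (w := w) hq hdvr h.unif h.lies_over hN hV1 M
      ⟨q * q, by ring⟩ (dvd_mul_right (M * q) q)
  have hk2 : j1 E M q - jq E M q ^ q ∈ V₃.nonunits := by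
    apply hnu3
    rw [map_sub, map_pow, hWj1, hWjq]
    exact H142.frobCong (P := P) (E := E) (w := w) hq hdvr h.unif h.lies_over hN hV1 (M * q)
      (dvd_mul_right (M * q) q) dvd_rfl
  have hk3 : j1 E M q - jqq E M q ^ (q * q) ∈ V₃.nonunits := by
    refine cong383_trans V₃ hk2 ?_
    rw [pow_mul]
    exact cong383_pow V₃ hjq.1 (pow_mem hjqq.1 q) hk1 q
  have hcong : x3E E M q - gammaB E M q (jE E M 1 (one_dvd _)) ^ (1 + q + q * q) ∈
      V₃.nonunits := by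
    rw [gammaB_j]
    have hx3 : x3E E M q = jqq E M q * jq E M q * j1 E M q := by
      rw [x3E_eq]
      ring
    rw [hx3]
    exact cong383_x V₃ hjqq.1 hjq.1 q (q * q) hk1 hk3
  refine normalAlong_pair hS (goodRed_of_std h) VM hVM V₃ hRV hwV (gammaB E M q) hγV hres
    (x3E E M q) x3E_ne_zero hx.1 hx.2 (1 + q + q * q) hcong ?_ ?_
  · rw [gammaB_j]
    exact Fermat.Agent.S36.Mod3.H189.jqq_mem_chart P E M q hq
  · rw [gammaB_j]
    exact Fermat.Agent.S36.Mod3.H189.jqq_inv_mem_chart P E M q hq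

end Fermat.Agent.S36.Mod3.H383

end
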