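import Fermat.Agent.S36.Mod3.H383.NormalV2
import Fermat.Agent.S36.Mod3.H383.NormalV3

/-!
# S36 / MOD3, leaf NORMAL (helper383): `leafNormal : Mod3.LeafNormal`, UNCONDITIONAL

The three components `V₁ = V∞`, `V₂ = mid`, `V₃ = V₀` of level `M q²` are normal in both charts
`chart R {x}`, `chart R {x⁻¹}`, `x = j j_q j_{q²}`:  direct transfer from level `M` (good
reduction, `A2.Mod.H216.goodRedHyp_of_dvr`) along

* `γ = α ∘ α` for `V₁`  (`x ≡ γ(j)^(1+q+q²)`, residue degree one: `H370.resInfQ` twice),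
* `γ = α ∘ α` for `V₂`  (`x ≡ γ(j)^(q+2)`, residue degree one: `H972.mod3_alpha_main`, then
  `H370.resInfQ`),
* `γ = β ∘ β` for `V₃`  (`x ≡ γ(j)^(1+q+q²)`, residue degree one: `H370.resZeroQ` twice, and
  `V₀(M) = V∞(M)`, `A2.Mod.H900.frickeStable`),

by `normalAlong_pair` (`NormalSide.lean`).  The chart memberships `γ j ∈ chart R {x}`,
`(γ j)⁻¹ ∈ chart R {x⁻¹}` are `Mod3.H189.j_mem_chart` etc.
-/

set_option autoImplicit false
set_option synthInstance.maxHeartbeats 400000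
set_option maxHeartbeats 1600000
set_option linter.unusedSectionVars false
set_option linter.style.haveILetI false

noncomputable section

namespace Fermat.Agent.S36.Mod3.H383

open ModularCurve
open Fermat.Agent.A2.Mod
open Fermat.Agent.S36.Eng
open Fermat.Agent.S18.H138 (chart)

variable {P : ValuationSubring Qb} {E : IntermediateField ℚ Qb} {M q : ℕ} [NeZero M] [NeZero q]
  [NeZero (M * q)] {w : RE P E}

/-! ## The leaf -/

/-- **`Mod3.LeafNormal`**, unconditional. -/
theorem leafNormal : Fermat.Agent.S36.Mod3.LeafNormal := by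
  intro P E M q _ _ _ w hStd V₁' V₂' V₁ V₂ V₃ W' W hO
  obtain ⟨h1f, h1i⟩ := normal_V1 hStd hO.vinf' hO.vinf
  obtain ⟨h2f, h2i⟩ := normal_V2 hStd hO.vinf' hO.vinf hO.mid hO.mid_ne
  obtain ⟨h3f, h3i⟩ := normal_V3 hStd hO.vinf hO.fricke
  rw [← hO.vzero] at h3f h3i
  exact ⟨h1f, h2f, h3f, h1i, h2i, h3i⟩

end Fermat.Agent.S36.Mod3.H383

end
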