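import Fermat.Agent.S36.Eng.Spec
import Fermat.Agent.A2.Mod.H142.S2Core

/-!
# S36 / MOD3, leaf NORMAL (helper383): the abstract part

* `normalAlong_of_normalIn`  : `A2.Mod.H142.NormalIn V B` (the shape of `GoodRedAt.normal`)
  implies `Eng.NormalAlong B V` (the shape of `Eng.TripleCtx.normal_*`);
* `resdeg_of_res`            : residue degree one at the level of the valuation rings from the
  chart form `B = γ(B') + (B ∩ 𝔪_V)` and `V = B_{B ∩ 𝔪_V}`;
* `nonunits_comap`           : `γ 𝔪_{V'} ⊆ 𝔪_V` when `V.comap γ = V'`.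

Mathlib + `H142.S2Core` only.
-/

set_option autoImplicit false
set_option linter.unusedSectionVars false

namespace Fermat.Agent.S36.Mod3.H383

open Fermat.Agent.S36.Eng Fermat.Agent.A2.Mod.H142

section Nu

variable {F : Type*} [Field F]

/-- `𝔪_V` is closed under addition. -/
theorem nu383_add (V : ValuationSubring F) {a b : F} (ha : a ∈ V.nonunits)
    (hb : b ∈ V.nonunits) : a + b ∈ V.nonunits := by
  rw [ValuationSubring.mem_nonunits_iff] at ha hb ⊢
  exact lt_of_le_of_lt (Valuation.map_add _ _ _) (max_lt ha hb)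

theorem nu383_neg (V : ValuationSubring F) {a : F} (ha : a ∈ V.nonunits) :
    -a ∈ V.nonunits := by
  rw [ValuationSubring.mem_nonunits_iff] at ha ⊢
  rwa [Valuation.map_neg]

theorem nu383_sub (V : ValuationSubring F) {a b : F} (ha : a ∈ V.nonunits)
    (hb : b ∈ V.nonunits) : a - b ∈ V.nonunits := by
  rw [sub_eq_add_neg]
  exact nu383_add V ha (nu383_neg V hb)

theorem nu383_zero (V : ValuationSubring F) : (0 : F) ∈ V.nonunits := by
  rw [ValuationSubring.mem_nonunits_iff, map_zero]
  exact zero_lt_one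

theorem nu383_mul_right (V : ValuationSubring F) {a c : F} (ha : a ∈ V.nonunits)
    (hc : c ∈ V) : a * c ∈ V.nonunits := by
  rw [ValuationSubring.mem_nonunits_iff] at ha ⊢
  rw [map_mul]
  calc V.valuation a * V.valuation c ≤ V.valuation a * 1 := by
        gcongr
        exact (V.valuation_le_one_iff _).2 hc
    _ = V.valuation a := mul_one _
    _ < 1 := ha

theorem nu383_mul_left (V : ValuationSubring F) {a c : F} (ha : a ∈ V.nonunits)
    (hc : c ∈ V) : c * a ∈ V.nonunits := by
  rw [mul_comm]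
  exact nu383_mul_right V ha hc

theorem nu383_one_not (V : ValuationSubring F) : (1 : F) ∉ V.nonunits := by
  rw [ValuationSubring.mem_nonunits_iff, map_one]
  exact lt_irrefl _

/-- a non-unit has no inverse in `V`; an element of `V` which is not in `𝔪_V` is a unit -/
theorem nu383_inv_mem (V : ValuationSubring F) {a : F} (_ha : a ∈ V) (han : a ∉ V.nonunits) :
    a⁻¹ ∈ V := by
  rw [ValuationSubring.mem_nonunits_iff_or] at han
  push Not at han
  exact han.2

end Nu

section Abs

variable {R F : Type*} [CommRing R] [Field F] [Algebra R F]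

/-- An element which satisfies a monic relation over `V` modulo `𝔪_V` lies in `V`. -/
theorem mem_of_monic_rel (V : ValuationSubring F) (B : Subalgebra R F) (hB : ∀ b ∈ B, b ∈ V)
    (f : F) (p : Polynomial B) (hp : p.Monic) (h : Polynomial.aeval f p ∈ V.nonunits) :
    f ∈ V := by
  classical
  by_contra hf
  have hf0 : f ≠ 0 := fun h0 => hf (h0 ▸ V.zero_mem)
  have hinv : f⁻¹ ∈ V.nonunits := by
    rw [ValuationSubring.mem_nonunits_iff]
    rcases V.mem_or_inv_mem f with h1 | h1
    · exact absurd h1 hf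
    · by_contra hcon
      rw [not_lt] at hcon
      have h2 : V.valuation f⁻¹ = 1 :=
        le_antisymm ((V.valuation_le_one_iff _).2 h1) hcon
      apply hf
      rw [← V.valuation_le_one_iff]
      have h3 : V.valuation f = 1 := by
        have h4 : V.valuation f * V.valuation f⁻¹ = 1 := by
          rw [← map_mul, mul_inv_cancel₀ hf0, map_one]
        rw [h2, mul_one] at h4
        exact h4
      exact h3.le
  -- the image of `V` in `F` is integrally closed; `f` is integral over `V` up to `𝔪_V`: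
  -- `f^n (1 + Σ c_i f^{i-n}) = p(f)`, the bracket is a unit of `V`
  set n := p.natDegree with hn
  have hsum : Polynomial.aeval f p = ∑ i ∈ Finset.range (n + 1), ((p.coeff i : B) : F) * f ^ i := by
    rw [Polynomial.aeval_eq_sum_range]
    refine Finset.sum_congr rfl fun i _ => ?_
    rw [Algebra.smul_def]
    rfl
  have hlead : ((p.coeff n : B) : F) = 1 := by
    have : p.coeff n = 1 := hp.coeff_natDegree
    rw [this]
    rfl
  -- multiply by `f⁻¹ ^ n`
  have hkey : Polynomial.aeval f p * f⁻¹ ^ n =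
      1 + ∑ i ∈ Finset.range n, ((p.coeff i : B) : F) * f⁻¹ ^ (n - i) := by
    rw [hsum, Finset.sum_range_succ, hlead, one_mul, add_mul, ← mul_pow, mul_inv_cancel₀ hf0,
      one_pow, add_comm, Finset.sum_mul]
    congr 1
    refine Finset.sum_congr rfl fun i hi => ?_
    have hi' : i ≤ n := (Finset.mem_range.1 hi).le
    have : f ^ i * f⁻¹ ^ n = f⁻¹ ^ (n - i) := by
      have h1 : f⁻¹ ^ n = f⁻¹ ^ (n - i) * f⁻¹ ^ i := by
        rw [← pow_add, Nat.sub_add_cancel hi']
      rw [h1, mul_comm (f⁻¹ ^ (n - i)), ← mul_assoc, ← mul_pow, mul_inv_cancel₀ hf0, one_pow,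
        one_mul]
    rw [mul_assoc, this]
  have hinvV : f⁻¹ ∈ V := V.nonunits_subset hinv
  have h1 : Polynomial.aeval f p * f⁻¹ ^ n ∈ V.nonunits := by
    rw [ValuationSubring.mem_nonunits_iff] at h ⊢
    rw [map_mul]
    calc V.valuation (Polynomial.aeval f p) * V.valuation (f⁻¹ ^ n)
        ≤ V.valuation (Polynomial.aeval f p) * 1 := by
          gcongr
          exact (V.valuation_le_one_iff _).2 (V.pow_mem hinvV n)
      _ = V.valuation (Polynomial.aeval f p) := mul_one _
      _ < 1 := h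
  have h2 : ∑ i ∈ Finset.range n, ((p.coeff i : B) : F) * f⁻¹ ^ (n - i) ∈ V.nonunits := by
    rw [ValuationSubring.mem_nonunits_iff]
    refine Valuation.map_sum_lt _ one_ne_zero fun i hi => ?_
    have hi' : n - i ≠ 0 := by
      have := Finset.mem_range.1 hi
      omega
    rw [map_mul]
    have ha : V.valuation ((p.coeff i : B) : F) ≤ 1 :=
      (V.valuation_le_one_iff _).2 (hB _ (p.coeff i).2)
    have hb : V.valuation (f⁻¹ ^ (n - i)) < 1 := by
      rw [map_pow]
      exact pow_lt_one₀ zero_le ((V.mem_nonunits_iff).1 hinv) hi'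
    calc V.valuation ((p.coeff i : B) : F) * V.valuation (f⁻¹ ^ (n - i))
        ≤ 1 * V.valuation (f⁻¹ ^ (n - i)) := by gcongr
      _ = V.valuation (f⁻¹ ^ (n - i)) := one_mul _
      _ < 1 := hb
  rw [hkey] at h1
  have h3 : (1 : F) ∈ V.nonunits := by
    have := nu383_sub V h1 h2
    simpa using this
  exact nu383_one_not V h3

/-- `NormalIn` (shape of `A2.Mod.GoodRedAt.normal`) implies `Eng.NormalAlong`. -/
theorem normalAlong_of_normalIn (V : ValuationSubring F) (B : Subalgebra R F)
    (hB : ∀ b ∈ B, b ∈ V) (h : NormalIn V (B : Set F)) : NormalAlong B V := by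
  classical
  intro f p hp hrel
  have hf : f ∈ V := mem_of_monic_rel V B hB f p hp hrel
  set n := p.natDegree with hn
  have hsum : Polynomial.aeval f p =
      f ^ n + ∑ i : Fin n, ((p.coeff (i : ℕ) : B) : F) * f ^ (i : ℕ) := by
    rw [Polynomial.aeval_eq_sum_range, Finset.sum_range_succ, hp.coeff_natDegree, one_smul,
      add_comm, Finset.sum_range]
    congr 1
  obtain ⟨b, hb, hfb⟩ := h f hf ⟨n, fun i => ((p.coeff (i : ℕ) : B) : F),
    fun i => (p.coeff (i : ℕ)).2, by
      rw [← hsum]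
      exact (V.mem_nonunits_iff).1 hrel⟩
  exact ⟨⟨b, hb⟩, (V.mem_nonunits_iff).2 hfb⟩

end Abs

section Res

variable {R F F' : Type*} [CommRing R] [Field F] [Algebra R F] [Field F'] [Algebra R F']

/-- `γ 𝔪_{V'} ⊆ 𝔪_V` when `V.comap γ = V'`. -/
theorem nonunits_comap (γ : F' →+* F) (V : ValuationSubring F) (V' : ValuationSubring F')
    (hc : V.comap γ = V') {g : F'} (hg : g ∈ V'.nonunits) : γ g ∈ V.nonunits := by
  rw [ValuationSubring.mem_nonunits_iff_or] at hg ⊢
  rcases hg with h0 | h
  · left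
    rw [h0, map_zero]
  · right
    intro h1
    apply h
    rw [← hc, ValuationSubring.mem_comap, map_inv₀]
    exact h1

/-- Residue degree one at the level of the valuation rings, from its chart form and
`V = B_{B ∩ 𝔪_V}`. -/
theorem resdeg_of_res (γ : F' →+* F) (V : ValuationSubring F) (V' : ValuationSubring F')
    (hc : V.comap γ = V') (B : Subalgebra R F) (B' : Subalgebra R F')
    (hB : ∀ b ∈ B, b ∈ V) (hB' : ∀ b ∈ B', b ∈ V')
    (hloc : ∀ z ∈ V, ∃ a s : F, a ∈ B ∧ s ∈ B ∧ s ∉ V.nonunits ∧ z = a * s⁻¹)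
    (hres : ∀ b ∈ B, ∃ b' ∈ B', b - γ b' ∈ V.nonunits) :
    ∀ f ∈ V, ∃ g ∈ V', V.valuation (f - γ g) < 1 := by
  intro f hf
  obtain ⟨a, s, ha, hs, hsn, rfl⟩ := hloc f hf
  obtain ⟨a', ha', haa⟩ := hres a ha
  obtain ⟨s', hs', hss⟩ := hres s hs
  have hγ : ∀ g ∈ V', γ g ∈ V := fun g hg => by
    rw [← hc] at hg
    exact hg
  have hsV : s ∈ V := hB s hs
  have hs'V : γ s' ∈ V := hγ s' (hB' s' hs')
  -- `s'` is a unit of `V'`
  have hs'n : γ s' ∉ V.nonunits := by
    intro h
    apply hsn
    have : s = (s - γ s') + γ s' := by ring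
    rw [this]
    exact nu383_add V hss h
  have hs'0 : s' ≠ 0 := by
    intro h0
    apply hs'n
    rw [h0, map_zero]
    exact nu383_zero V
  have hs0 : s ≠ 0 := by
    intro h0
    apply hsn
    rw [h0]
    exact nu383_zero V
  have hsinv : s⁻¹ ∈ V := nu383_inv_mem V hsV hsn
  have hs'inv : (γ s')⁻¹ ∈ V := nu383_inv_mem V hs'V hs'n
  have hs'invV' : s'⁻¹ ∈ V' := by
    rw [← hc, ValuationSubring.mem_comap, map_inv₀]
    exact hs'inv
  refine ⟨a' * s'⁻¹, V'.mul_mem _ _ (hB' a' ha') hs'invV', ?_⟩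
  rw [← ValuationSubring.mem_nonunits_iff, map_mul, map_inv₀]
  have hγs0 : γ s' ≠ 0 := (map_ne_zero γ).2 hs'0
  have hid : a * s⁻¹ - γ a' * (γ s')⁻¹ =
      ((a - γ a') * s⁻¹) - (γ a' * (γ s')⁻¹ * s⁻¹) * (s - γ s') := by
    field_simp
    ring
  rw [hid]
  refine nu383_sub V ?_ ?_
  · exact nu383_mul_right V haa hsinv
  · exact nu383_mul_left V hss
      (V.mul_mem _ _ (V.mul_mem _ _ (hγ a' (hB' a' ha')) hs'inv) hsinv)

end Res

end Fermat.Agent.S36.Mod3.H383
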