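import Fermat.Agent.S36.Mod3.H383.NormalSide
import Fermat.Agent.A2.Mod.H216.GoodRedAll
import Fermat.Agent.S36.H370.Mod3Res
import Fermat.Agent.S36.H972.Mod3Alpha

/-!
# S36 / MOD3, leaf NORMAL (helper383): the standing data

* congruences modulo `𝔪_V` (`cong383_*`);
* `setting_of_std`, `goodRed_of_std`, `unram_of_std` : the hypotheses of the A2 / H972 toolkits
  from `Mod3.Std`;
* `res_comp` : residue degree one is transitive;
* `base_of_comap` : `R ⊆ V`, `w ∈ 𝔪_V` are inherited along `V.comap γ = V'`.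
-/

set_option autoImplicit false
set_option synthInstance.maxHeartbeats 400000
set_option maxHeartbeats 1600000
set_option linter.unusedSectionVars false
set_option linter.style.haveILetI false

noncomputable section

namespace Fermat.Agent.S36.Mod3.H383

open ModularCurve
open Fermat.Agent.A2.Mod
open Fermat.Agent.S36.Eng

section Cong

variable {F : Type*} [Field F]

/-- `a ≡ b`, `c ≡ d mod 𝔪_V` ⟹ `a c ≡ b d`. -/
theorem cong383_mul (V : ValuationSubring F) {a b c d : F} (ha : a ∈ V) (hd : d ∈ V)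
    (h1 : a - b ∈ V.nonunits) (h2 : c - d ∈ V.nonunits) : a * c - b * d ∈ V.nonunits := by
  have : a * c - b * d = a * (c - d) + (a - b) * d := by ring
  rw [this]
  exact nu383_add V (nu383_mul_left V h2 ha) (nu383_mul_right V h1 hd)

theorem cong383_trans (V : ValuationSubring F) {a b c : F}
    (h1 : a - b ∈ V.nonunits) (h2 : b - c ∈ V.nonunits) : a - c ∈ V.nonunits := by
  have : a - c = (a - b) + (b - c) := by ring
  rw [this]
  exact nu383_add V h1 h2

/-- `a ≡ b mod 𝔪_V` ⟹ `a ^ n ≡ b ^ n`. -/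
theorem cong383_pow (V : ValuationSubring F) {a b : F} (ha : a ∈ V) (hb : b ∈ V)
    (h : a - b ∈ V.nonunits) (n : ℕ) : a ^ n - b ^ n ∈ V.nonunits := by
  induction n with
  | zero =>
    rw [pow_zero, pow_zero, sub_self]
    exact nu383_zero V
  | succ n ih =>
    rw [pow_succ, pow_succ]
    exact cong383_mul V (pow_mem ha n) hb ih h

/-- `x = a b c`, `b ≡ a ^ m`, `c ≡ a ^ n` ⟹ `x ≡ a ^ (1 + m + n)`. -/
theorem cong383_x (V : ValuationSubring F) {a b c : F} (ha : a ∈ V) (hb : b ∈ V)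
    (m n : ℕ) (h1 : b - a ^ m ∈ V.nonunits) (h2 : c - a ^ n ∈ V.nonunits) :
    a * b * c - a ^ (1 + m + n) ∈ V.nonunits := by
  have : a * b * c - a ^ (1 + m + n) = a * b * (c - a ^ n) + a * (b - a ^ m) * a ^ n := by
    ring
  rw [this]
  exact nu383_add V (nu383_mul_left V h2 (V.mul_mem _ _ ha hb))
    (nu383_mul_right V (nu383_mul_left V h1 ha) (pow_mem ha n))

/-- an element congruent to a unit is a unit -/
theorem cong383_unit (V : ValuationSubring F) {a c : F} (ha0 : a ≠ 0) (ha : a ∈ V)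
    (hai : a⁻¹ ∈ V) (h : c - a ∈ V.nonunits) : c ∈ V ∧ c⁻¹ ∈ V := by
  have hc : c ∈ V := by
    have : c = (c - a) + a := by ring
    rw [this]
    exact V.add_mem _ _ (V.nonunits_subset h) ha
  refine ⟨hc, nu383_inv_mem V hc fun hcn => ?_⟩
  have h1 : a ∈ V.nonunits := by
    have : a = c - (c - a) := by ring
    rw [this]
    exact nu383_sub V hcn h
  rw [ValuationSubring.mem_nonunits_iff_or] at h1
  rcases h1 with h0 | h1
  · exact ha0 h0
  · exact h1 hai

/-- a unit is not in `𝔪_V` -/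
theorem nu383_not_of_inv (V : ValuationSubring F) {a : F} (ha0 : a ≠ 0) (hai : a⁻¹ ∈ V) :
    a ∉ V.nonunits := by
  intro h1
  rw [ValuationSubring.mem_nonunits_iff_or] at h1
  rcases h1 with h0 | h1
  · exact ha0 h0
  · exact h1 hai

/-- `𝔪_V` from "`a ∈ V`, `a⁻¹ ∉ V`" -/
theorem nu383_of_inv_not (V : ValuationSubring F) {a : F} (hai : a⁻¹ ∉ V) :
    a ∈ V.nonunits := by
  rw [ValuationSubring.mem_nonunits_iff_or]
  exact Or.inr hai

end Cong

section Res

variable {F₀ F₁ F₂ : Type*} [Field F₀] [Field F₁] [Field F₂]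

/-- Residue degree one is transitive. -/
theorem res_comp (γ₁ : F₀ →+* F₁) (γ₂ : F₁ →+* F₂) (V₀ : ValuationSubring F₀)
    (V₁ : ValuationSubring F₁) (V₂ : ValuationSubring F₂)
    (h₂ : ∀ f ∈ V₂, ∃ g ∈ V₁, f - γ₂ g ∈ V₂.nonunits)
    (h₁ : ∀ f ∈ V₁, ∃ g ∈ V₀, f - γ₁ g ∈ V₁.nonunits)
    (hγ : ∀ g ∈ V₁.nonunits, γ₂ g ∈ V₂.nonunits) :
    ∀ f ∈ V₂, ∃ g ∈ V₀, V₂.valuation (f - γ₂ (γ₁ g)) < 1 := by
  intro f hf
  obtain ⟨g₁, hg₁, h1⟩ := h₂ f hf
  obtain ⟨g, hg, h2⟩ := h₁ g₁ hg₁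
  refine ⟨g, hg, ?_⟩
  rw [← ValuationSubring.mem_nonunits_iff]
  have : f - γ₂ (γ₁ g) = (f - γ₂ g₁) + γ₂ (g₁ - γ₁ g) := by
    rw [map_sub]
    ring
  rw [this]
  exact nu383_add V₂ h1 (hγ _ h2)

end Res

/-- `γ k ∈ V ↔ k ∈ V'` when `V.comap γ = V'`. -/
theorem mem_of_comap_eq {F F' : Type*} [Field F] [Field F'] (γ : F' →+* F)
    (V : ValuationSubring F) (V' : ValuationSubring F') (hc : V.comap γ = V') (k : F') :
    γ k ∈ V ↔ k ∈ V' := by
  rw [← hc, ValuationSubring.mem_comap]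

section Std

variable {P : ValuationSubring Qb} {E : IntermediateField ℚ Qb} {M q : ℕ} [NeZero M] [NeZero q]
  [NeZero (M * q)] {w : RE P E}

theorem setting_of_std (h : Std P E M q w) : Setting P E M q w :=
  ⟨h.q_prime, h.q_not_dvd, NeZero.ne M, h.lies_over, h.unram.1.dvr, h.unif⟩

theorem settingQ_of_std (h : Std P E M q w) : Fermat.Agent.S36.H370.SettingQ P E q w :=
  ⟨h.q_prime, h.lies_over, h.unram.1.dvr, h.unif⟩

theorem goodRed_of_std (h : Std P E M q w) : GoodRedHyp P E M :=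
  H216.goodRedHyp_of_dvr P E M h.q_prime h.q_not_dvd h.neat.hasAux.1 h.neat.hasAux.2
    h.lies_over h.unram.1.dvr

/-- `q = w · unit` in `R_E`. -/
theorem unram_of_std (h : Std P E M q w) : Fermat.Agent.S36.H972.Unram P E q w := by
  have hdvr := h.unram.1.dvr
  obtain ⟨c, hc⟩ := Fermat.Agent.S36.H370.exists_q_eqQ (settingQ_of_std h)
  have hw0 : (w : E) ≠ 0 := fun h0 => h.unif.ne_zero (Subtype.ext h0)
  have hq0 : ((q : ℕ) : E) ≠ 0 := Nat.cast_ne_zero.mpr h.q_prime.ne_zero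
  -- `w⁻¹ ∉ R_E`
  have hwinv : ((w : E))⁻¹ ∉ RE P E := by
    intro hmem
    apply h.unif.not_isUnit
    refine isUnit_iff_exists_inv.mpr ⟨⟨_, hmem⟩, Subtype.ext ?_⟩
    show (w : E) * ((w : E))⁻¹ = 1
    exact mul_inv_cancel₀ hw0
  have hwnu : ((w : E) : Qb) ∈ P.nonunits := by
    rw [ValuationSubring.mem_nonunits_iff_or]
    right
    intro h1
    apply hwinv
    show algebraMap E Qb ((w : E))⁻¹ ∈ P
    rw [map_inv₀]
    exact h1
  have ht := h.unram.2 (w : E) hwnu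
  have htE : (w : E) * ((q : ℕ) : E)⁻¹ ∈ RE P E := by
    show algebraMap E Qb ((w : E) * ((q : ℕ) : E)⁻¹) ∈ P
    rw [map_mul, map_inv₀, map_natCast]
    exact ht
  have hct : c * (⟨_, htE⟩ : RE P E) = 1 := by
    apply Subtype.ext
    show (c : E) * ((w : E) * ((q : ℕ) : E)⁻¹) = 1
    have hc0 : (c : E) ≠ 0 := by
      intro h0
      rw [h0, mul_zero] at hc
      exact hq0 hc
    rw [hc]
    field_simp
  exact ⟨Units.mkOfMulEqOne c _ hct, hc⟩

end Std

section Base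

variable {P : ValuationSubring Qb} {E : IntermediateField ℚ Qb} {w : RE P E}

/-- `R ⊆ V` and `w ∈ 𝔪_V` are inherited along `V.comap γ = V'`. -/
theorem base_of_comap {N' N : ℕ} (γ : FE E N' →ₐ[E] FE E N) (V : ValuationSubring (FE E N))
    (V' : ValuationSubring (FE E N')) (hc : V.comap (γ : FE E N' →+* FE E N) = V')
    (hRV' : ∀ r : RE P E, algebraMap (RE P E) (FE E N') r ∈ V')
    (hw' : cE P E N' w ∈ V'.nonunits) :
    (∀ r : RE P E, algebraMap (RE P E) (FE E N) r ∈ V) ∧ cE P E N w ∈ V.nonunits := by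
  refine ⟨fun r => ?_, ?_⟩
  · have h1 := hRV' r
    rw [← hc, ValuationSubring.mem_comap] at h1
    have h2 : (γ : FE E N' →+* FE E N) (algebraMap (RE P E) (FE E N') r) =
        algebraMap (RE P E) (FE E N) r := γ.commutes (r : E)
    rwa [h2] at h1
  · have h1 := nonunits_comap (γ : FE E N' →+* FE E N) V V' hc hw'
    have h2 : (γ : FE E N' →+* FE E N) (cE P E N' w) = cE P E N w := γ.commutes (w : E)
    rwa [h2] at h1

/-- the base data of `V∞` -/
theorem base_vinf {N : ℕ} (hN : N ≠ 0) (hdvr : IsDiscreteValuationRing (RE P E))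
    (hw : Irreducible w) (V : ValuationSubring (FE E N)) (hV : IsVinf P E N V) :
    (∀ r : RE P E, algebraMap (RE P E) (FE E N) r ∈ V) ∧ cE P E N w ∈ V.nonunits := by
  have hL2 := H553.vinfBasic P E w N hN hdvr hw V hV
  exact ⟨fun r => (hL2.2.1 (r : E)).mpr r.2, nu383_of_inv_not V hL2.1.inv_not_mem⟩

end Base

end Fermat.Agent.S36.Mod3.H383

end
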