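import Fermat.Agent.S36.Mod3.H383.NormalAbs
import Fermat.Agent.S36.Mod3.Spec
import Fermat.Agent.A2.Mod.H142.S2

/-!
# S36 / MOD3, leaf NORMAL (helper383): one component, both charts

`normalAlong_pair`: for a valuation subring `V` of `F_{N,E}` (any level `N`) and an `E`-algebra
map `γ : F_{M,E} → F_{N,E}` (`q ∤ M`, good reduction at level `M`) such that

* `R ⊆ V`, `w ∈ 𝔪_V`, `γ V∞(M) ⊆ V`, residue degree one (`V = γ V∞(M) + 𝔪_V`),
* `x ≡ γ(j_M) ^ e  mod 𝔪_V`, `x, x⁻¹ ∈ V`,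
* `γ j_M ∈ chart R {x}`, `(γ j_M)⁻¹ ∈ chart R {x⁻¹}`,

the component of `V` in the two charts `chart R {x}`, `chart R {x⁻¹}` is normal
(`Eng.NormalAlong`).  No hypothesis on the ramification of `V` (the middle component of level
`M q²` has `e = q - 1`).

This is `A2.Mod.H142.normal_side` with `w V` replaced by `𝔪_V`.
-/

set_option autoImplicit false
set_option synthInstance.maxHeartbeats 400000
set_option maxHeartbeats 1600000
set_option linter.unusedSectionVars false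
set_option linter.style.haveILetI false

noncomputable section

namespace Fermat.Agent.S36.Mod3.H383

open ModularCurve
open Fermat.Agent.A2.Mod
open Fermat.Agent.S36.Eng

variable {P : ValuationSubring Qb} {E : IntermediateField ℚ Qb} {M q : ℕ} [NeZero M] [NeZero q]
  {w : RE P E}

/-- **One component, one chart** (`NormalIn` form). -/
theorem normalIn_of_levelM (hS : Setting P E M q w)
    (VM : ValuationSubring (FE E M)) (hVM : IsVinf P E M VM)
    {N : ℕ} (V : ValuationSubring (FE E N))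
    (hRV : ∀ r : RE P E, algebraMap (RE P E) (FE E N) r ∈ V)
    (hwV : cE P E N w ∈ V.nonunits)
    (γ : FE E M →ₐ[E] FE E N)
    (hγV : ∀ g ∈ VM, γ g ∈ V)
    (hres : ∀ f ∈ V, ∃ g ∈ VM, V.valuation (f - γ g) < 1)
    (yM : FE E M) (y : FE E N) (hyM : yM ∈ VM) (hy : y ∈ V) (e : ℕ)
    (hcong : V.valuation (y - γ (yM ^ e)) < 1)
    (hγy : γ yM ∈ chartAlg P E N y)
    (hgood : GoodRedAt P E M w VM yM) :
    H142.NormalIn V ((chartAlg P E N y : Subalgebra (RE P E) (FE E N)) : Set (FE E N)) := by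
  have hdvr := hS.dvr
  have hL2M := H553.vinfBasic P E w M hS.M_ne_zero hdvr hS.unif VM hVM
  have hUM : A2.H48.IsUnif VM (cE P E M w) := hL2M.1
  have hRVM : ∀ r : RE P E, algebraMap (RE P E) (FE E M) r ∈ VM := fun r =>
    (hL2M.2.1 (r : E)).mpr r.2
  have hγR : ∀ r : RE P E, (γ : FE E M →+* FE E N) (algebraMap (RE P E) (FE E M) r) =
      algebraMap (RE P E) (FE E N) r := fun r => γ.commutes (r : E)
  have hγc : γ (cE P E M w) = cE P E N w := γ.commutes (w : E)
  have hB₀ : ∀ b ∈ chartAlg P E M yM, b ∈ VM := fun b hb =>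
    H142.mem_valuationSubring_of_isIntegral_adjoin VM hRVM hyM ((mem_chartAlg P E M).1 hb)
  have hB : ∀ b ∈ chartAlg P E N y, b ∈ V := fun b hb =>
    H142.mem_valuationSubring_of_isIntegral_adjoin V hRV hy ((mem_chartAlg P E N).1 hb)
  have hγB : ∀ b ∈ chartAlg P E M yM, (γ : FE E M →+* FE E N) b ∈ chartAlg P E N y :=
    fun b hb => (mem_chartAlg P E N).2
      (H142.isIntegral_adjoin_map (γ : FE E M →+* FE E N) hγR
        ((mem_chartAlg P E N).1 hγy) ((mem_chartAlg P E M).1 hb))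
  have hγp : ∀ g : FE E M, VM.valuation g < 1 →
      V.valuation ((γ : FE E M →+* FE E N) g) < 1 := by
    intro g hg
    rw [← H142.inW_iff hUM] at hg
    unfold InW at hg
    have h1 := hγV _ hg
    rw [map_mul, map_inv₀, hγc] at h1
    have hw0 : cE P E N w ≠ 0 := by
      rw [← hγc]
      exact (map_ne_zero γ).2 hUM.ne_zero
    have h2 : (γ : FE E M →+* FE E N) g = cE P E N w * (γ g * (cE P E N w)⁻¹) := by
      show γ g = _
      field_simp
    rw [h2, ← ValuationSubring.mem_nonunits_iff]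
    exact nu383_mul_right V hwV h1
  have hnorm₀ : H142.NormalIn VM
      ((chartAlg P E M yM : Subalgebra (RE P E) (FE E M)) : Set (FE E M)) := by
    intro f hf ⟨n, c, hc, hrel⟩
    obtain ⟨b, hb, hfb⟩ := hgood.normal f hf
      ⟨n, c, fun i => (H142.mem_chart_iff P E M yM (c i)).2 (hc i), (H142.inW_iff hUM _).2 hrel⟩
    exact ⟨b, (H142.mem_chart_iff P E M yM b).1 hb, (H142.inW_iff hUM _).1 hfb⟩
  have hint := H142.isIntegralElem_of_coord (γ : FE E M →+* FE E N) hγR V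
    (chartAlg P E M yM) (chartAlg P E N y) hB hγB y (H142.self_mem_chartAlg P E N y)
    (yM ^ e) (pow_mem (H142.self_mem_chartAlg P E M yM) _) hcong
    (fun b hb => (mem_chartAlg P E N).1 hb)
  exact H142.normalIn_transfer (γ : FE E M →+* FE E N) VM V hγV hγp
    (chartAlg P E M yM) (chartAlg P E N y) hB₀ hB hγB hres hint hnorm₀

/-- **One component, one chart** (`Eng.NormalAlong` form). -/
theorem normalAlong_of_levelM (hS : Setting P E M q w)
    (VM : ValuationSubring (FE E M)) (hVM : IsVinf P E M VM)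
    {N : ℕ} (V : ValuationSubring (FE E N))
    (hRV : ∀ r : RE P E, algebraMap (RE P E) (FE E N) r ∈ V)
    (hwV : cE P E N w ∈ V.nonunits)
    (γ : FE E M →ₐ[E] FE E N)
    (hγV : ∀ g ∈ VM, γ g ∈ V)
    (hres : ∀ f ∈ V, ∃ g ∈ VM, V.valuation (f - γ g) < 1)
    (yM : FE E M) (y : FE E N) (hyM : yM ∈ VM) (hy : y ∈ V) (e : ℕ)
    (hcong : V.valuation (y - γ (yM ^ e)) < 1)
    (hγy : γ yM ∈ Fermat.Agent.S18.H138.chart (RE P E) ({y} : Set (FE E N)))
    (hgood : GoodRedAt P E M w VM yM) :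
    NormalAlong (Fermat.Agent.S18.H138.chart (RE P E) ({y} : Set (FE E N))) V := by
  have h := normalIn_of_levelM hS VM hVM V hRV hwV γ hγV hres yM y hyM hy e hcong hγy hgood
  refine normalAlong_of_normalIn V _ (fun b hb => ?_) h
  exact H142.mem_valuationSubring_of_isIntegral_adjoin V hRV hy hb

/-- **One component, both charts.**  `jM = j` of level `M`; `x ≡ γ(j)^e mod 𝔪_V`. -/
theorem normalAlong_pair (hS : Setting P E M q w) (hgood : GoodRedHyp P E M)
    (VM : ValuationSubring (FE E M)) (hVM : IsVinf P E M VM)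
    {N : ℕ} (V : ValuationSubring (FE E N))
    (hRV : ∀ r : RE P E, algebraMap (RE P E) (FE E N) r ∈ V)
    (hwV : cE P E N w ∈ V.nonunits)
    (γ : FE E M →ₐ[E] FE E N)
    (hγV : ∀ g ∈ VM, γ g ∈ V)
    (hres : ∀ f ∈ V, ∃ g ∈ VM, V.valuation (f - γ g) < 1)
    (x : FE E N) (hx0 : x ≠ 0) (hxV : x ∈ V) (hxiV : x⁻¹ ∈ V) (e : ℕ)
    (hcong : x - γ (jE E M 1 (one_dvd _)) ^ e ∈ V.nonunits)
    (hγy : γ (jE E M 1 (one_dvd _)) ∈
      Fermat.Agent.S18.H138.chart (RE P E) ({x} : Set (FE E N)))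
    (hγyi : (γ (jE E M 1 (one_dvd _)))⁻¹ ∈
      Fermat.Agent.S18.H138.chart (RE P E) ({x⁻¹} : Set (FE E N))) :
    NormalAlong (Fermat.Agent.S18.H138.chart (RE P E) ({x} : Set (FE E N))) V ∧
      NormalAlong (Fermat.Agent.S18.H138.chart (RE P E) ({x⁻¹} : Set (FE E N))) V := by
  have hL2M := H553.vinfBasic P E w M hS.M_ne_zero hS.dvr hS.unif VM hVM
  have hjM := hL2M.2.2 1 (one_dvd M)
  obtain ⟨hg1, hg2⟩ := hgood w VM hS.unif hVM
  set jM : FE E M := jE E M 1 (one_dvd _) with hjMdef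
  have hjM0 : jM ≠ 0 := H873.jE_ne_zero E M 1 (one_dvd _)
  have ha0 : γ jM ≠ 0 := (map_ne_zero γ).2 hjM0
  have haV : γ jM ∈ V := hγV _ hjM.1
  have haiV : (γ jM)⁻¹ ∈ V := by
    rw [← map_inv₀]
    exact hγV _ hjM.2
  refine ⟨?_, ?_⟩
  · refine normalAlong_of_levelM hS VM hVM V hRV hwV γ hγV hres jM x hjM.1 hxV e ?_ hγy hg1
    rw [map_pow, ← ValuationSubring.mem_nonunits_iff]
    exact hcong
  · refine normalAlong_of_levelM hS VM hVM V hRV hwV γ hγV hres jM⁻¹ x⁻¹ hjM.2 hxiV e ?_ ?_ hg2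
    · rw [map_pow, map_inv₀, ← ValuationSubring.mem_nonunits_iff]
      have hid : x⁻¹ - (γ jM)⁻¹ ^ e = -(x - γ jM ^ e) * (x⁻¹ * (γ jM)⁻¹ ^ e) := by
        have hpow : γ jM ^ e * (γ jM)⁻¹ ^ e = 1 := by
          rw [← mul_pow, mul_inv_cancel₀ ha0, one_pow]
        have h1 : -(x - γ jM ^ e) * (x⁻¹ * (γ jM)⁻¹ ^ e) =
            (γ jM ^ e * (γ jM)⁻¹ ^ e) * x⁻¹ - (x * x⁻¹) * (γ jM)⁻¹ ^ e := by ring
        rw [h1, hpow, mul_inv_cancel₀ hx0]
        ring
      rw [hid]
      exact nu383_mul_right V (nu383_neg V hcong) (V.mul_mem _ _ hxiV (pow_mem haiV e))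
    · rw [map_inv₀]
      exact hγyi

end Fermat.Agent.S36.Mod3.H383

end
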