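import Fermat.Agent.S36.Mod3.H383.NormalBase
import Fermat.Agent.A2.Mod.H900.L7
import Fermat.Agent.S36.H370.Mod3Kron
import Fermat.Agent.S36.Mod3.H189.Chart3

/-!
# S36 / MOD3, leaf NORMAL (helper383): the component `V₁ = V∞` (see `Normal.lean`)

The three components `V₁ = V∞`, `V₂ = mid`, `V₃ = V₀` of level `M q²` are normal in both charts
`chart R {x}`, `chart R {x⁻¹}`, `x = j j_q j_{q²}`:  direct transfer from level `M` (good
reduction, `A2.Mod.H216.goodRedHyp_of_dvr`) along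

* `γ = α ∘ α` for `V₁`  (`x ≡ γ(j)^(1+q+q²)`, residue degree one: `H370.resInfQ` twice),
* `γ = α ∘ α` for `V₂`  (`x ≡ γ(j)^(q+2)`, residue degree one: `H972.mod3_alpha_main`, then
  `H370.resInfQ`),
* `γ = β ∘ β` for `V₃`  (`x ≡ γ(j)^(1+q+q²)`, residue degree one: `H370.resZeroQ` twice, and
  `V₀(M) = V∞(M)`, `A2.Mod.H900.frickeStable`),

by `normalAlong_pair` (`NormalSide.lean`).  The chart memberships `γ j ∈ chart R {x}`,
`(γ j)⁻¹ ∈ chart R {x⁻¹}` are `Mod3.H189.j_mem_chart` etc.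
-/

set_option autoImplicit false
set_option synthInstance.maxHeartbeats 400000
set_option maxHeartbeats 1600000
set_option linter.unusedSectionVars false
set_option linter.style.haveILetI false

noncomputable section

namespace Fermat.Agent.S36.Mod3.H383

open ModularCurve
open Fermat.Agent.A2.Mod
open Fermat.Agent.S36.Eng
open Fermat.Agent.S18.H138 (chart)

variable {P : ValuationSubring Qb} {E : IntermediateField ℚ Qb} {M q : ℕ} [NeZero M] [NeZero q]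
  [NeZero (M * q)] {w : RE P E}

theorem x3E_eq : x3E E M q = j1 E M q * jq E M q * jqq E M q := rfl

theorem x3E_ne_zero : x3E E M q ≠ 0 := by
  rw [x3E_eq]
  exact mul_ne_zero (mul_ne_zero (H873.jE_ne_zero E _ _ _) (H873.jE_ne_zero E _ _ _))
    (H873.jE_ne_zero E _ _ _)

/-- `x` is a unit of `V` as soon as `j`, `j_q`, `j_{q²}` are. -/
theorem x3E_unit (V : ValuationSubring (FE E (M * q * q)))
    (h1 : j1 E M q ∈ V ∧ (j1 E M q)⁻¹ ∈ V) (h2 : jq E M q ∈ V ∧ (jq E M q)⁻¹ ∈ V)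
    (h3 : jqq E M q ∈ V ∧ (jqq E M q)⁻¹ ∈ V) : x3E E M q ∈ V ∧ (x3E E M q)⁻¹ ∈ V := by
  rw [x3E_eq]
  refine ⟨V.mul_mem _ _ (V.mul_mem _ _ h1.1 h2.1) h3.1, ?_⟩
  rw [mul_inv, mul_inv]
  exact V.mul_mem _ _ (V.mul_mem _ _ h1.2 h2.2) h3.2

/-- `α ∘ α`. -/
def gammaA (E : IntermediateField ℚ Qb) (M q : ℕ) [NeZero M] [NeZero q] [NeZero (M * q)] :
    FE E M →ₐ[E] FE E (M * q * q) :=
  (αE E (M * q) q).comp (αE E M q)

/-- `β ∘ β`. -/
def gammaB (E : IntermediateField ℚ Qb) (M q : ℕ) [NeZero M] [NeZero q] [NeZero (M * q)] :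
    FE E M →ₐ[E] FE E (M * q * q) :=
  (βE E (M * q) q).comp (βE E M q)

theorem gammaA_apply (g : FE E M) : gammaA E M q g = αE E (M * q) q (αE E M q g) := rfl

theorem gammaB_apply (g : FE E M) : gammaB E M q g = βE E (M * q) q (βE E M q g) := rfl

theorem gammaA_j : gammaA E M q (jE E M 1 (one_dvd _)) = j1 E M q := by
  rw [gammaA_apply, H751.alpha_jE E M q 1 (one_dvd M), H751.alpha_jE E (M * q) q 1 (one_dvd _)]
  rfl

theorem gammaB_j : gammaB E M q (jE E M 1 (one_dvd _)) = jqq E M q := by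
  rw [gammaB_apply, H751.beta_jE E M q 1 (one_dvd M)]
  have h1 : jE E (M * q) (q * 1) (by rw [mul_comm M q]; exact mul_dvd_mul_left q (one_dvd M)) =
      jE E (M * q) q (dvd_mul_left q M) := H751.jE_congr E (M * q) (mul_one q) _ _
  rw [h1, H751.beta_jE E (M * q) q q (dvd_mul_left q M)]
  rfl

/-! ## The component `V₁ = V∞` -/

theorem normal_V1 (h : Std P E M q w)
    {V₁' : ValuationSubring (FE E (M * q))} (hV1' : IsVinf P E (M * q) V₁')
    {V₁ : ValuationSubring (FE E (M * q * q))} (hV1 : IsVinf P E (M * q * q) V₁) :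
    NormalAlong (chart (RE P E) ({x3E E M q} : Set (FE E (M * q * q)))) V₁ ∧
      NormalAlong (chart (RE P E) ({(x3E E M q)⁻¹} : Set (FE E (M * q * q)))) V₁ := by
  have hS := setting_of_std h
  have hSQ := settingQ_of_std h
  have hdvr := hS.dvr
  have hq := h.q_prime
  obtain ⟨VM, hVM⟩ := H553.vinfExists P E M (NeZero.ne M) hdvr
  have hN' : M * q ≠ 0 := NeZero.ne _
  have hN : M * q * q ≠ 0 := Nat.mul_ne_zero hN' hq.ne_zero
  have hL2 := H553.vinfBasic P E w (M * q * q) hN hdvr h.unif V₁ hV1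
  have hL2' := H553.vinfBasic P E w (M * q) hN' hdvr h.unif V₁' hV1'
  obtain ⟨hRV, hwV⟩ := base_vinf hN hdvr h.unif V₁ hV1
  have hγV : ∀ g ∈ VM, gammaA E M q g ∈ V₁ := fun g hg =>
    (Fermat.Agent.S36.H370.alpha_mem_iffQ hSQ hV1' hV1 _).mpr
      ((Fermat.Agent.S36.H370.alpha_mem_iffQ hSQ hVM hV1' g).mpr hg)
  have hres : ∀ f ∈ V₁, ∃ g ∈ VM, V₁.valuation (f - gammaA E M q g) < 1 := by
    refine res_comp (αE E M q : FE E M →+* FE E (M * q))
      (αE E (M * q) q : FE E (M * q) →+* FE E (M * q * q)) VM V₁' V₁ ?_ ?_ ?_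
    · intro f hf
      obtain ⟨g, hg, hfg⟩ := Fermat.Agent.S36.H370.resInfQ hSQ hV1' hV1 hf
      exact ⟨g, hg, (V₁.mem_nonunits_iff).2 ((H142.inW_iff hL2.1 _).1 hfg)⟩
    · intro f hf
      obtain ⟨g, hg, hfg⟩ := Fermat.Agent.S36.H370.resInfQ hSQ hVM hV1' hf
      exact ⟨g, hg, (V₁'.mem_nonunits_iff).2 ((H142.inW_iff hL2'.1 _).1 hfg)⟩
    · intro g hg
      exact nonunits_comap _ V₁ V₁' (Fermat.Agent.S36.H370.comap_alpha_vinfQ hSQ hV1' hV1) hg
  -- units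
  have hj1 : j1 E M q ∈ V₁ ∧ (j1 E M q)⁻¹ ∈ V₁ := hL2.2.2 1 (one_dvd _)
  have hjq : jq E M q ∈ V₁ ∧ (jq E M q)⁻¹ ∈ V₁ := hL2.2.2 q (Dvd.intro_left (M * q) rfl)
  have hjqq : jqq E M q ∈ V₁ ∧ (jqq E M q)⁻¹ ∈ V₁ := hL2.2.2 (q * q) ⟨M, by ring⟩
  have hx := x3E_unit V₁ hj1 hjq hjqq
  -- Kronecker
  haveI : NeZero (1 * q) := ⟨by rw [one_mul]; exact hq.ne_zero⟩
  have hk1 : jq E M q - j1 E M q ^ q ∈ V₁.nonunits := by
    have h0 := H142.frobCong (P := P) (E := E) (w := w) hq hdvr h.unif h.lies_over hN hV1 1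
      (one_dvd _) (by rw [one_mul]; exact Dvd.intro_left (M * q) rfl)
    have h1 : jE E (M * q * q) (1 * q) (by rw [one_mul]; exact Dvd.intro_left (M * q) rfl) =
        jE E (M * q * q) q (Dvd.intro_left (M * q) rfl) :=
      H751.jE_congr E (M * q * q) (one_mul q) _ _
    rw [h1] at h0
    exact (V₁.mem_nonunits_iff).2 ((H142.inW_iff hL2.1 _).1 h0)
  have hk2 : jqq E M q - jq E M q ^ q ∈ V₁.nonunits := by
    have h0 := H142.frobCong (P := P) (E := E) (w := w) hq hdvr h.unif h.lies_over hN hV1 q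
      (Dvd.intro_left (M * q) rfl) ⟨M, by ring⟩
    exact (V₁.mem_nonunits_iff).2 ((H142.inW_iff hL2.1 _).1 h0)
  have hk3 : jqq E M q - j1 E M q ^ (q * q) ∈ V₁.nonunits := by
    refine cong383_trans V₁ hk2 ?_
    rw [pow_mul]
    exact cong383_pow V₁ hjq.1 (pow_mem hj1.1 q) hk1 q
  have hcong : x3E E M q - gammaA E M q (jE E M 1 (one_dvd _)) ^ (1 + q + q * q) ∈
      V₁.nonunits := by
    rw [gammaA_j, x3E_eq]
    exact cong383_x V₁ hj1.1 hjq.1 q (q * q) hk1 hk3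
  refine normalAlong_pair hS (goodRed_of_std h) VM hVM V₁ hRV hwV (gammaA E M q) hγV hres
    (x3E E M q) x3E_ne_zero hx.1 hx.2 (1 + q + q * q) hcong ?_ ?_
  · rw [gammaA_j]
    exact Fermat.Agent.S36.Mod3.H189.j_mem_chart P E M q hq
  · rw [gammaA_j]
    exact Fermat.Agent.S36.Mod3.H189.j_inv_mem_chart P E M q hq

end Fermat.Agent.S36.Mod3.H383

end
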