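import Fermat.Agent.S36.Mod3.H383.NormalV1

/-!
# S36 / MOD3, leaf NORMAL (helper383): the middle component `V₂`
-/

set_option autoImplicit false
set_option synthInstance.maxHeartbeats 400000
set_option maxHeartbeats 1600000
set_option linter.unusedSectionVars false
set_option linter.style.haveILetI false

noncomputable section

namespace Fermat.Agent.S36.Mod3.H383

open ModularCurve
open Fermat.Agent.A2.Mod
open Fermat.Agent.S36.Eng
open Fermat.Agent.S18.H138 (chart)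

variable {P : ValuationSubring Qb} {E : IntermediateField ℚ Qb} {M q : ℕ} [NeZero M] [NeZero q]
  [NeZero (M * q)] {w : RE P E}

/-! ## The middle component `V₂` -/

/-- `H972.mod3_alpha_main` in the vocabulary of `Mod3/Spec.lean`. -/
theorem mid_alpha (h : Std P E M q w)
    {V₁' : ValuationSubring (FE E (M * q))} (hV1' : IsVinf P E (M * q) V₁')
    {V₁ : ValuationSubring (FE E (M * q * q))} (hV1 : IsVinf P E (M * q * q) V₁) :
    ∃ Vmid : ValuationSubring (FE E (M * q * q)),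
      Vmid ≠ V₁ ∧
      (∀ k, αE E (M * q) q k ∈ Vmid ↔ k ∈ V₁') ∧
      A2.H48.IsUnif Vmid (jqq E M q - j1 E M q) ∧
      (∀ f ∈ Vmid, ∃ g ∈ V₁',
        (f - αE E (M * q) q g) * (jqq E M q - j1 E M q)⁻¹ ∈ Vmid) ∧
      (∀ V' : ValuationSubring (FE E (M * q * q)),
        (∀ k, αE E (M * q) q k ∈ V' ↔ k ∈ V₁') → V' = V₁ ∨ V' = Vmid) := by
  have hS := setting_of_std h
  obtain ⟨Vmid, h1, h2, hunif, -, hresmid, -, honly⟩ :=
    Fermat.Agent.S36.H972.mod3_alpha_main hS (unram_of_std h) hV1' hV1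
  exact ⟨Vmid, h1, h2, hunif, hresmid, honly⟩

/-- the middle component: `π = j_{q²} - j` is a uniformiser, residue degree one along `α` -/
theorem mid_unif (h : Std P E M q w)
    {V₁' : ValuationSubring (FE E (M * q))} (hV1' : IsVinf P E (M * q) V₁')
    {V₁ : ValuationSubring (FE E (M * q * q))} (hV1 : IsVinf P E (M * q * q) V₁)
    {V₂ : ValuationSubring (FE E (M * q * q))}
    (hmid : V₂.comap (αE E (M * q) q : FE E (M * q) →+* FE E (M * q * q)) = V₁')
    (hne : V₂ ≠ V₁) :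
    A2.H48.IsUnif V₂ (jqq E M q - j1 E M q) ∧
      (∀ f ∈ V₂, ∃ g ∈ V₁',
        (f - αE E (M * q) q g) * (jqq E M q - j1 E M q)⁻¹ ∈ V₂) := by
  obtain ⟨Vmid, -, -, hunif, hresmid, honly⟩ := mid_alpha h hV1' hV1
  have hV2 : V₂ = Vmid := by
    rcases honly V₂ (fun k =>
      mem_of_comap_eq (αE E (M * q) q : FE E (M * q) →+* FE E (M * q * q)) V₂ V₁' hmid k)
      with h1 | h1
    · exact absurd h1 hne
    · exact h1
  rw [hV2]
  exact ⟨hunif, hresmid⟩

theorem normal_V2 (h : Std P E M q w)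
    {V₁' : ValuationSubring (FE E (M * q))} (hV1' : IsVinf P E (M * q) V₁')
    {V₁ : ValuationSubring (FE E (M * q * q))} (hV1 : IsVinf P E (M * q * q) V₁)
    {V₂ : ValuationSubring (FE E (M * q * q))}
    (hmid : V₂.comap (αE E (M * q) q : FE E (M * q) →+* FE E (M * q * q)) = V₁')
    (hne : V₂ ≠ V₁) :
    NormalAlong (chart (RE P E) ({x3E E M q} : Set (FE E (M * q * q)))) V₂ ∧
      NormalAlong (chart (RE P E) ({(x3E E M q)⁻¹} : Set (FE E (M * q * q)))) V₂ := by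
  have hS := setting_of_std h
  have hSQ := settingQ_of_std h
  have hdvr := hS.dvr
  have hq := h.q_prime
  obtain ⟨VM, hVM⟩ := H553.vinfExists P E M (NeZero.ne M) hdvr
  have hN' : M * q ≠ 0 := NeZero.ne _
  have hN : M * q * q ≠ 0 := Nat.mul_ne_zero hN' hq.ne_zero
  have hL2' := H553.vinfBasic P E w (M * q) hN' hdvr h.unif V₁' hV1'
  obtain ⟨hunif, hresmid⟩ := mid_unif h hV1' hV1 hmid hne
  have hπ0 : jqq E M q - j1 E M q ≠ 0 := hunif.ne_zero
  have hπ : jqq E M q - j1 E M q ∈ V₂.nonunits := nu383_of_inv_not V₂ hunif.inv_not_mem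
  obtain ⟨hRV', hwV'⟩ := base_vinf hN' hdvr h.unif V₁' hV1'
  obtain ⟨hRV, hwV⟩ := base_of_comap (αE E (M * q) q) V₂ V₁' hmid hRV' hwV'
  have hα : ∀ g ∈ V₁', αE E (M * q) q g ∈ V₂ := fun g hg =>
    (mem_of_comap_eq (αE E (M * q) q : FE E (M * q) →+* FE E (M * q * q)) V₂ V₁' hmid g).2 hg
  have hγV : ∀ g ∈ VM, gammaA E M q g ∈ V₂ := fun g hg =>
    hα _ ((Fermat.Agent.S36.H370.alpha_mem_iffQ hSQ hVM hV1' g).mpr hg)
  have hres : ∀ f ∈ V₂, ∃ g ∈ VM, V₂.valuation (f - gammaA E M q g) < 1 := by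
    refine res_comp (αE E M q : FE E M →+* FE E (M * q))
      (αE E (M * q) q : FE E (M * q) →+* FE E (M * q * q)) VM V₁' V₂ ?_ ?_ ?_
    · intro f hf
      obtain ⟨g, hg, hfg⟩ := hresmid f hf
      refine ⟨g, hg, ?_⟩
      have hid : f - αE E (M * q) q g =
          (f - αE E (M * q) q g) * (jqq E M q - j1 E M q)⁻¹ * (jqq E M q - j1 E M q) := by
        field_simp
      show f - αE E (M * q) q g ∈ V₂.nonunits
      rw [hid]
      exact nu383_mul_left V₂ hπ hfg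
    · intro f hf
      obtain ⟨g, hg, hfg⟩ := Fermat.Agent.S36.H370.resInfQ hSQ hVM hV1' hf
      exact ⟨g, hg, (V₁'.mem_nonunits_iff).2 ((H142.inW_iff hL2'.1 _).1 hfg)⟩
    · intro g hg
      exact nonunits_comap _ V₂ V₁' hmid hg
  -- units
  have hαj1 : αE E (M * q) q (jE E (M * q) 1 (one_dvd _)) = j1 E M q :=
    H751.alpha_jE E (M * q) q 1 (one_dvd _)
  have hαjq : αE E (M * q) q (jE E (M * q) q (dvd_mul_left q M)) = jq E M q :=
    H751.alpha_jE E (M * q) q q (dvd_mul_left q M)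
  have hj1' := hL2'.2.2 1 (one_dvd _)
  have hjq' := hL2'.2.2 q (dvd_mul_left q M)
  have hj1 : j1 E M q ∈ V₂ ∧ (j1 E M q)⁻¹ ∈ V₂ := by
    rw [← hαj1, ← map_inv₀]
    exact ⟨hα _ hj1'.1, hα _ hj1'.2⟩
  have hjq : jq E M q ∈ V₂ ∧ (jq E M q)⁻¹ ∈ V₂ := by
    rw [← hαjq, ← map_inv₀]
    exact ⟨hα _ hjq'.1, hα _ hjq'.2⟩
  have hjqq : jqq E M q ∈ V₂ ∧ (jqq E M q)⁻¹ ∈ V₂ :=
    cong383_unit V₂ (H873.jE_ne_zero E _ _ _) hj1.1 hj1.2 hπ
  have hx := x3E_unit V₂ hj1 hjq hjqq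
  -- Kronecker
  haveI : NeZero (1 * q) := ⟨by rw [one_mul]; exact hq.ne_zero⟩
  have hk1 : jq E M q - j1 E M q ^ q ∈ V₂.nonunits := by
    have h0 := H142.frobCong (P := P) (E := E) (w := w) hq hdvr h.unif h.lies_over hN' hV1' 1
      (one_dvd _) (by rw [one_mul]; exact dvd_mul_left q M)
    have h1 : jE E (M * q) (1 * q) (by rw [one_mul]; exact dvd_mul_left q M) =
        jE E (M * q) q (dvd_mul_left q M) := H751.jE_congr E (M * q) (one_mul q) _ _
    rw [h1] at h0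
    have h2 : jE E (M * q) q (dvd_mul_left q M) - jE E (M * q) 1 (one_dvd _) ^ q ∈
        V₁'.nonunits := (V₁'.mem_nonunits_iff).2 ((H142.inW_iff hL2'.1 _).1 h0)
    have h3 := nonunits_comap (αE E (M * q) q : FE E (M * q) →+* FE E (M * q * q)) V₂ V₁'
      hmid h2
    have h4 : (αE E (M * q) q : FE E (M * q) →+* FE E (M * q * q))
        (jE E (M * q) q (dvd_mul_left q M) - jE E (M * q) 1 (one_dvd _) ^ q) =
        jq E M q - j1 E M q ^ q := by
      show αE E (M * q) q _ = _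
      rw [map_sub, map_pow, hαj1, hαjq]
    rwa [h4] at h3
  have hk2 : jqq E M q - j1 E M q ^ 1 ∈ V₂.nonunits := by
    rw [pow_one]
    exact hπ
  have hcong : x3E E M q - gammaA E M q (jE E M 1 (one_dvd _)) ^ (1 + q + 1) ∈
      V₂.nonunits := by
    rw [gammaA_j, x3E_eq]
    exact cong383_x V₂ hj1.1 hjq.1 q 1 hk1 hk2
  refine normalAlong_pair hS (goodRed_of_std h) VM hVM V₂ hRV hwV (gammaA E M q) hγV hres
    (x3E E M q) x3E_ne_zero hx.1 hx.2 (1 + q + 1) hcong ?_ ?_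
  · rw [gammaA_j]
    exact Fermat.Agent.S36.Mod3.H189.j_mem_chart P E M q hq
  · rw [gammaA_j]
    exact Fermat.Agent.S36.Mod3.H189.j_inv_mem_chart P E M q hq

end Fermat.Agent.S36.Mod3.H383

end
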